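/-
PROJECT P (S44), brick [ENT], part (E4) (helper21): `E[p]` AS A TWO-DIMENSIONAL REPRESENTATION:
`det = ω`, the characteristic polynomial of Frobenius, and `span ρ(G_ℚ) = End E[p]`.

`W` an integral Weierstrass model with `Δ ≠ 0`, `p` an odd prime with `E[p]` irreducible
(`Vp W p`, `rho W p` of `S41/NonEis/Inst`).

* `exists_frob` : main's weak Chebotarev on `ℚ(E[p], ζ_p) · L₀`: every `g` is a power of a Frobenius
  lift `τ` at a good prime outside a given finite set, which is itself a power of `g` (on `E[p]`, on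
  `μ_p` and on any given finite extension `L₀`);
* `det_rho` : `det ρ(g) = ω(g)` (the argument of `S41/NonEis/Core`, freed from its contradictory
  frame);
* `trace_rho_frob`, `det_rho_frob` : `ρ(Frob_ℓ)` has characteristic polynomial `X² - a_ℓ(W) X + ℓ`;
* `span_range_rho` : the image of `ρ` spans `End E[p]` (helper3's `Alg/BurnsideInvol` at complex
  conjugation).
-/
import Fermat.Agent.S41.NonEis.Inst
import Fermat.Agent.S44.Alg.BurnsideInvol

set_option autoImplicit false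
set_option linter.unusedSectionVars false
set_option linter.style.haveILetI false

noncomputable section

namespace Fermat.Agent.S44.Ent.DetE

open WeierstrassCurve WeierstrassCurve.Affine Module
open scoped WeierstrassCurve.Affine
open Fermat.Agent.S58.TateE (WQ Pts)
open Fermat.Agent.S41.NonEis.Inst
open Fermat.Agent.S41.NonEis.Roots
open Fermat.Agent.S41.NonEis.Core (det_eq_of_quadratic)
open Fermat.Agent.S30.Algebra.Cyclotomic (Qbar GQ)

variable {W : WeierstrassCurve ℤ} {p : ℕ} [Fact p.Prime]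

/-- `ρ g` is a scalar. -/
def IsScalar (W : WeierstrassCurve ℤ) (p : ℕ) [Fact p.Prime] (g : GQ) : Prop :=
  ∃ s : ZMod p, rho W p g = s • (1 : Module.End (ZMod p) (Vp W p))

/-- **Weak Chebotarev on `ℚ(E[p], ζ_p) · L₀`.** -/
theorem exists_frob (hΔ : W.Δ ≠ 0) (L₀ : IntermediateField ℚ Qbar) [FiniteDimensional ℚ L₀]
    (S : Finset ℕ) (g : GQ) :
    ∃ (ℓ : ℕ) (A : ValuationSubring Qbar) (τ : GQ) (k j : ℕ), ℓ.Prime ∧ ℓ ∉ S ∧ ℓ ≠ p ∧
      W.IsGoodPrimeFor ℓ ∧ A.LiesOverPrime ℓ ∧ A.IsFrobeniusAt τ ℓ ∧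
      rho W p τ = rho W p g ^ k ∧ (rho W p g ^ k) ^ j = rho W p g ∧
      omega p τ = omega p g ^ k ∧ (omega p g ^ k) ^ j = omega p g ∧
      (∀ x ∈ L₀, τ x = (g ^ k) x) ∧ (∀ x ∈ L₀, ((g ^ k) ^ j) x = g x) := by
  have hp : p.Prime := Fact.out
  haveI : NeZero p := ⟨hp.ne_zero⟩
  obtain ⟨ζ, hζ⟩ := HasEnoughRootsOfUnity.exists_primitiveRoot Qbar p
  haveI := finiteDimensional_fieldL p hΔ ζ
  haveI : FiniteDimensional ℚ (↥(fieldL W p ζ ⊔ L₀)) :=
    IntermediateField.finiteDimensional_sup _ _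
  obtain ⟨ℓ, hℓ, hℓS, A, τ, k, j, hA, hτ, h1, h2⟩ :=
    Fermat.Agent.S30.Density.Bridge.frobenius_density_final (fieldL W p ζ ⊔ L₀) g
      (badSet W p S p)
  obtain ⟨hℓnS, hℓp, -, hgood⟩ := not_mem_badSet p hp.pos hΔ hℓ hℓS
  have hle1 : fieldL W p ζ ≤ fieldL W p ζ ⊔ L₀ := le_sup_left
  have hle2 : L₀ ≤ fieldL W p ζ ⊔ L₀ := le_sup_right
  refine ⟨ℓ, A, τ, k, j, hℓ, hℓnS, hℓp, hgood, hA, hτ, ?_, ?_, ?_, ?_,
    fun x hx => h1 x (hle2 hx), fun x hx => h2 x (hle2 hx)⟩
  · rw [← map_pow]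
    exact rho_eq_of_eqOn W p ζ _ _ fun x hx => h1 x (hle1 hx)
  · rw [← map_pow, ← map_pow]
    exact rho_eq_of_eqOn W p ζ _ _ fun x hx => h2 x (hle1 hx)
  · rw [← map_pow]
    exact omega_congr p _ _
      (fun t ht => h1 t (hle1 (root_mem_fieldL W p hp.pos hζ dvd_rfl ht)))
  · rw [← map_pow, ← map_pow]
    exact omega_congr p _ _
      (fun t ht => h2 t (hle1 (root_mem_fieldL W p hp.pos hζ dvd_rfl ht)))

/-- some element is not a scalar. -/
theorem exists_not_isScalar (hΔ : W.Δ ≠ 0)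
    (hirr : Point.GaloisRepIsIrreducible (K := Qbar) ℚ (WQ W) p) :
    ∃ g : GQ, ¬ IsScalar W p g := by
  by_contra hall'
  have hall : ∀ g : GQ, IsScalar W p g := fun g => by_contra fun h => hall' ⟨g, h⟩
  have hfin := finrank_Vp p hΔ
  haveI : Nontrivial (Vp W p) :=
    Module.nontrivial_of_finrank_pos (R := ZMod p) (by rw [hfin]; norm_num)
  obtain ⟨v, hv⟩ := exists_ne (0 : Vp W p)
  let N : Submodule (ZMod p) (Vp W p) := Submodule.span (ZMod p) {v}
  have hN : ∀ g : GQ, ∀ x ∈ N, rho W p g x ∈ N := by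
    intro g x hx
    obtain ⟨s, hs⟩ := hall g
    rw [hs, LinearMap.smul_apply, Module.End.one_apply]
    exact N.smul_mem s hx
  rcases hirr.2 N (fun σ x hx => hN σ x hx) with hbot | htop
  · exact hv ((Submodule.span_singleton_eq_bot).mp hbot)
  · have h1 : finrank (ZMod p) N = 1 := finrank_span_singleton hv
    rw [htop, finrank_top, hfin] at h1
    norm_num at h1

/-- `det ρ(g) = ω(g)` for non-scalar `g`. -/
theorem det_rho_of_not_isScalar (hΔ : W.Δ ≠ 0) {g : GQ} (hg : ¬ IsScalar W p g) :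
    LinearMap.det (rho W p g) = ((omega p g : (ZMod p)ˣ) : ZMod p) := by
  obtain ⟨ℓ, A, τ, k, j, hℓ, -, hℓp, hgood, hA, hτ, h1, h2, h3, h4, -, -⟩ :=
    exists_frob (p := p) hΔ ⊥ ∅ g
  have ha := rho_quad W p hℓ hgood hℓp A hA τ hτ
  rw [← omega_frob p hℓ hℓp A hA τ hτ] at ha
  have hns : ∀ s : ZMod p, rho W p τ ≠ s • (1 : Module.End (ZMod p) (Vp W p)) := by
    intro s hs
    apply hg
    refine ⟨s ^ j, ?_⟩
    rw [← h2, ← h1, hs, smul_pow, one_pow]
  have hdet := det_eq_of_quadratic (finrank_Vp p hΔ) (rho W p τ) _ _ ha hns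
  calc LinearMap.det (rho W p g) = LinearMap.det ((rho W p τ) ^ j) := by rw [h1, h2]
    _ = (LinearMap.det (rho W p τ)) ^ j := map_pow _ _ _
    _ = (((omega p τ : (ZMod p)ˣ) : ZMod p)) ^ j := by rw [hdet]
    _ = ((omega p g : (ZMod p)ˣ) : ZMod p) := by
        rw [h3, ← Units.val_pow_eq_pow_val, h4]

/-- **`det ρ = ω` on `E[p]`.** -/
theorem det_rho (hΔ : W.Δ ≠ 0) (hirr : Point.GaloisRepIsIrreducible (K := Qbar) ℚ (WQ W) p)
    (g : GQ) : LinearMap.det (rho W p g) = ((omega p g : (ZMod p)ˣ) : ZMod p) := by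
  by_cases hg : IsScalar W p g
  · obtain ⟨g₀, hg₀⟩ := exists_not_isScalar hΔ hirr
    have hfin := finrank_Vp p hΔ
    haveI : Nontrivial (Vp W p) :=
      Module.nontrivial_of_finrank_pos (R := ZMod p) (by rw [hfin]; norm_num)
    have hgg₀ : ¬ IsScalar W p (g * g₀) := by
      rintro ⟨t, ht⟩
      obtain ⟨s, hs⟩ := hg
      apply hg₀
      have hs0 : s ≠ 0 := by
        rintro rfl
        rw [zero_smul] at hs
        have h1 : rho W p g * rho W p g⁻¹ = 1 := by rw [← map_mul, mul_inv_cancel, map_one]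
        rw [hs, zero_mul] at h1
        obtain ⟨v, hv⟩ := exists_ne (0 : Vp W p)
        exact hv (by simpa using (LinearMap.congr_fun h1 v).symm)
      refine ⟨s⁻¹ * t, ?_⟩
      rw [map_mul, hs] at ht
      rw [mul_smul, ← ht, smul_mul_assoc, one_mul, smul_smul, inv_mul_cancel₀ hs0, one_smul]
    have h1 := det_rho_of_not_isScalar hΔ hgg₀
    have h2 := det_rho_of_not_isScalar hΔ hg₀
    rw [map_mul, map_mul, map_mul, Units.val_mul, h2] at h1
    exact mul_right_cancel₀ (Units.ne_zero _) h1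
  · exact det_rho_of_not_isScalar hΔ hg

/-- the determinant of a Frobenius lift at a good prime `ℓ ≠ p` is `ℓ`. -/
theorem det_rho_frob (hΔ : W.Δ ≠ 0) (hirr : Point.GaloisRepIsIrreducible (K := Qbar) ℚ (WQ W) p)
    {ℓ : ℕ} (hℓ : ℓ.Prime) (hℓp : ℓ ≠ p) (A : ValuationSubring Qbar) (hA : A.LiesOverPrime ℓ)
    (τ : GQ) (hτ : A.IsFrobeniusAt τ ℓ) :
    LinearMap.det (rho W p τ) = (ℓ : ZMod p) := by
  rw [det_rho hΔ hirr, omega_frob p hℓ hℓp A hA τ hτ]

/-- the trace of a Frobenius lift at a good prime `ℓ ≠ p` is `a_ℓ(W)`. -/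
theorem trace_rho_frob (hΔ : W.Δ ≠ 0)
    (hirr : Point.GaloisRepIsIrreducible (K := Qbar) ℚ (WQ W) p)
    {ℓ : ℕ} (hℓ : ℓ.Prime) (hgood : W.IsGoodPrimeFor ℓ) (hℓp : ℓ ≠ p)
    (A : ValuationSubring Qbar) (hA : A.LiesOverPrime ℓ) (τ : GQ) (hτ : A.IsFrobeniusAt τ ℓ) :
    LinearMap.trace (ZMod p) (Vp W p) (rho W p τ) = ((W.apOfModel ℓ : ℤ) : ZMod p) := by
  have hfin := finrank_Vp p hΔ
  haveI : Module.Finite (ZMod p) (Vp W p) :=
    Module.finite_of_finrank_pos (by rw [hfin]; norm_num)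
  have hq := rho_quad W p hℓ hgood hℓp A hA τ hτ
  have hdet := det_rho_frob hΔ hirr hℓ hℓp A hA τ hτ
  -- Cayley-Hamilton in rank two
  have hCH : rho W p τ * rho W p τ - LinearMap.trace (ZMod p) (Vp W p) (rho W p τ) • rho W p τ
      + LinearMap.det (rho W p τ) • (1 : Module.End (ZMod p) (Vp W p)) = 0 := by
    let b : Basis (Fin 2) (ZMod p) (Vp W p) := Module.finBasisOfFinrankEq (ZMod p) (Vp W p) hfin
    apply (LinearMap.toMatrix b b).injective
    have hone : LinearMap.toMatrix b b (1 : Module.End (ZMod p) (Vp W p)) = 1 := by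
      rw [Module.End.one_eq_id, LinearMap.toMatrix_id]
    rw [map_add, map_sub, map_smul, map_smul, hone, Module.End.mul_eq_comp,
      LinearMap.toMatrix_comp b b b, map_zero, ← LinearMap.det_toMatrix b,
      LinearMap.trace_eq_matrix_trace (ZMod p) b,
      Fermat.Agent.S41.NonEis.Core.matrix_sq_fin_two]
    abel
  -- subtract
  have hsub : (LinearMap.trace (ZMod p) (Vp W p) (rho W p τ) - ((W.apOfModel ℓ : ℤ) : ZMod p)) •
      rho W p τ = 0 := by
    rw [hdet] at hCH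
    rw [sub_smul, ← sub_eq_zero.mpr (hq.trans hCH.symm)]
    abel
  by_contra hne
  have hne' : LinearMap.trace (ZMod p) (Vp W p) (rho W p τ) -
      ((W.apOfModel ℓ : ℤ) : ZMod p) ≠ 0 := sub_ne_zero.mpr hne
  have h0 : rho W p τ = 0 := by
    have := congrArg (fun x => (LinearMap.trace (ZMod p) (Vp W p) (rho W p τ) -
      ((W.apOfModel ℓ : ℤ) : ZMod p))⁻¹ • x) hsub
    simpa [smul_smul, inv_mul_cancel₀ hne'] using this
  have h1 : rho W p τ * rho W p τ⁻¹ = 1 := by rw [← map_mul, mul_inv_cancel, map_one]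
  rw [h0, zero_mul] at h1
  haveI : Nontrivial (Vp W p) :=
    Module.nontrivial_of_finrank_pos (R := ZMod p) (by rw [hfin]; norm_num)
  obtain ⟨v, hv⟩ := exists_ne (0 : Vp W p)
  exact hv (by simpa using (LinearMap.congr_fun h1 v).symm)

/-- **The image of `ρ` spans `End E[p]`.** -/
theorem span_range_rho (hΔ : W.Δ ≠ 0) (hp2 : p ≠ 2)
    (hirr : Point.GaloisRepIsIrreducible (K := Qbar) ℚ (WQ W) p) :
    Submodule.span (ZMod p) (Set.range (rho W p)) = ⊤ := by
  have hfin := finrank_Vp p hΔ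
  have h2 : (2 : ZMod p) ≠ 0 := by
    intro h
    have h3 : ((2 : ℕ) : ZMod p) = 0 := by exact_mod_cast h
    rw [ZMod.natCast_eq_zero_iff] at h3
    exact hp2 ((Nat.prime_dvd_prime_iff_eq (Fact.out : p.Prime) Nat.prime_two).mp h3)
  have hdetc : LinearMap.det (rho W p complexConjugation) = -1 := by
    rw [det_rho hΔ hirr, omega_complexConjugation, Units.val_neg, Units.val_one]
  refine Fermat.Agent.S44.Alg.BurnsideInvol.span_range_eq_top_of_involution hfin (rho W p)
    (fun N hN => hirr.2 N (fun σ x hx => hN σ x hx)) h2 complexConjugation ?_ ?_ ?_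
  · rw [← map_mul, complexConjugation_mul_self, map_one]
  · intro h
    rw [h, map_one] at hdetc
    have : (2 : ZMod p) = 0 := by linear_combination hdetc
    exact h2 this
  · intro h
    rw [h, show (-1 : Module.End (ZMod p) (Vp W p)) = (-1 : ZMod p) • (1 : Module.End (ZMod p) (Vp W p)) by
      rw [neg_smul, one_smul], LinearMap.det_smul, hfin, map_one] at hdetc
    have : (2 : ZMod p) = 0 := by linear_combination hdetc
    exact h2 this

end Fermat.Agent.S44.Ent.DetE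

end
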