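/-
PROJECT P (S44), brick [ENT], part (E5) = step (ii) (helper21): THE CAYLEY-HAMILTON RELATIONS ON THE
`a_ℓ(W)`-EIGENSPACE OF `J₀(N)[p]`.

`eigenX N p S a` : the subgroup of `J₀(N)` of the first coordinates `x = w.1 1` of Tate vectors
`w ∈ T_p J₀(N)` with `T_ℓ x = a ℓ • x` for all primes `ℓ ∉ S`; an `𝔽_p`-vector space with an action
`rX` of `G_ℚ`.

`rX_quadratic` : for `a = a_ℓ(W)`, `E[p]` irreducible, `S ⊇ {p} ∪ primes of N ∪ bad primes of W`:
every `g ∈ G_ℚ` satisfies on `eigenX` the characteristic polynomial of `ρ̄_E(g)`: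
`rX g ∘ rX g - tr(ρ̄_E g) • rX g + det(ρ̄_E g) • 1 = 0`.

Proof: weak Chebotarev (`Ent/DetE.exists_frob`): `g = τ^j`, `τ = g^k` on `E[p]` and on `J[p]`, `τ` a
Frobenius lift at a prime `ℓ ∉ S`; Eichler-Shimura on `J[p]` (`S30.Arith.Torsion.frobenius_relation`)
gives `τ² - a_ℓ τ + ℓ = 0` on `eigenX`, and `X² - a_ℓ X + ℓ` is the characteristic polynomial of
`ρ̄_E(τ)` (`Ent/DetE`); pass to `j`-th powers with the Lucas sequence (`S31/Lucas`).
-/
import Fermat.Agent.S31.Lucas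
import Fermat.Agent.S30.Arith.Smooth
import Fermat.Agent.S30.Arith.Torsion
import Fermat.Agent.S30.Arith.HeckeGalois
import Fermat.Agent.S30.Final.H1
import Fermat.Agent.S30.Descent.PhiDictThm
import Fermat.Agent.S30.Padic.TateModule
import Fermat.Agent.S44.Ent.DetE

set_option autoImplicit false
set_option linter.unusedSectionVars false
set_option linter.style.haveILetI false

noncomputable section

namespace Fermat.Agent.S44.Ent.CH

open WeierstrassCurve WeierstrassCurve.Affine Module ModularCurve Polynomial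
open scoped WeierstrassCurve.Affine
open Fermat.Agent.S58.TateE (WQ Pts)
open Fermat.Agent.S41.NonEis.Inst
open Fermat.Agent.S41.NonEis.Roots
open Fermat.Agent.S30.Algebra.Cyclotomic (Qbar GQ)
open Fermat.Agent.S30.Padic.TateModule
open Fermat.Agent.S44.Ent.DetE

section Space

variable (N : ℕ) [NeZero N] (p : ℕ) [Fact p.Prime] (S : Finset ℕ) (a : ℕ → ℤ)

/-- The liftable eigenvectors: first coordinates of Tate vectors, with eigenvalue `a ℓ` for `T_ℓ`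
at every prime `ℓ ∉ S`. -/
def eigenX : AddSubgroup (JZero N) where
  carrier := {x | (∃ w : Tp p (JZero N), w.1 1 = x) ∧
    ∀ (ℓ : ℕ) (hℓ : ℓ.Prime), ℓ ∉ S → heckeOperatorBar N (⟨ℓ, hℓ⟩ : Nat.Primes) x = a ℓ • x}
  zero_mem' := ⟨⟨0, rfl⟩, fun ℓ hℓ _ => by rw [map_zero, smul_zero]⟩
  add_mem' := by
    rintro x y ⟨⟨w, rfl⟩, hx⟩ ⟨⟨w', rfl⟩, hy⟩
    exact ⟨⟨w + w', rfl⟩, fun ℓ hℓ hℓS => by rw [map_add, hx ℓ hℓ hℓS, hy ℓ hℓ hℓS, zsmul_add]⟩
  neg_mem' := by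
    rintro x ⟨⟨w, rfl⟩, hx⟩
    exact ⟨⟨-w, rfl⟩, fun ℓ hℓ hℓS => by rw [map_neg, hx ℓ hℓ hℓS, zsmul_neg]⟩

variable {N p S a}

theorem mem_eigenX {x : JZero N} : x ∈ eigenX N p S a ↔ (∃ w : Tp p (JZero N), w.1 1 = x) ∧
    ∀ (ℓ : ℕ) (hℓ : ℓ.Prime), ℓ ∉ S → heckeOperatorBar N (⟨ℓ, hℓ⟩ : Nat.Primes) x = a ℓ • x := Iff.rfl

theorem nsmul_eq_zero_of_mem {x : JZero N} (hx : x ∈ eigenX N p S a) : p • x = 0 := by
  obtain ⟨⟨w, rfl⟩, -⟩ := hx
  have := Tp.pow_smul_apply w 1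
  rwa [pow_one] at this

theorem smul_mem (σ : GQ) {x : JZero N} (hx : x ∈ eigenX N p S a) : σ • x ∈ eigenX N p S a := by
  obtain ⟨⟨w, rfl⟩, hx⟩ := hx
  refine ⟨⟨Tp.galoisHom GQ σ w, Tp.coe_galoisHom_apply σ w 1⟩, fun ℓ hℓ hℓS => ?_⟩
  have h1 := Fermat.Agent.S30.Arith.HeckeGalois.heckeOperatorBar_smul N
    (⟨ℓ, hℓ⟩ : Nat.Primes) σ (w.1 1)
  rw [hx ℓ hℓ hℓS] at h1
  exact h1.trans (map_zsmul (DistribSMul.toAddMonoidHom (JZero N) σ) (a ℓ) (w.1 1))

variable (N p S a)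

instance instModule : Module (ZMod p) (eigenX N p S a) :=
  AddCommGroup.zmodModule fun x => Subtype.ext (nsmul_eq_zero_of_mem x.2)

/-- the action of `σ` on the eigenspace, as an additive map. -/
def galX (σ : GQ) : eigenX N p S a →+ eigenX N p S a where
  toFun x := ⟨σ • (x : JZero N), smul_mem σ x.2⟩
  map_zero' := Subtype.ext (smul_zero σ)
  map_add' x y := Subtype.ext (smul_add σ (x : JZero N) (y : JZero N))

/-- **The Galois action on the eigenspace.** -/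
def rX : GQ →* Module.End (ZMod p) (eigenX N p S a) where
  toFun σ := (galX N p S a σ).toZModLinearMap p
  map_one' := by
    ext x
    exact one_smul GQ (x : JZero N)
  map_mul' σ τ := by
    ext x
    exact mul_smul σ τ (x : JZero N)

variable {N p S a}

@[simp] theorem coe_rX_apply (σ : GQ) (x : eigenX N p S a) :
    ((rX N p S a σ x : eigenX N p S a) : JZero N) = σ • (x : JZero N) := rfl

theorem coe_zmod_smul (c : ℤ) (x : eigenX N p S a) :
    (((c : ZMod p) • x : eigenX N p S a) : JZero N) = c • (x : JZero N) := by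
  rw [Int.cast_smul_eq_zsmul]
  rfl

end Space

section Relation

variable {N : ℕ} [NeZero N] {p : ℕ} [Fact p.Prime] {S : Finset ℕ} {W : WeierstrassCurve ℤ}

/-- two automorphisms agreeing on a field over which `J[p]` is rational act in the same way on the
eigenspace. -/
theorem rX_eq_of_eqOn {a : ℕ → ℤ} (L₀ : IntermediateField ℚ Qbar)
    (hL₀ : ∀ σ : GQ, (∀ x ∈ L₀, σ x = x) → ∀ y : JZero N, p • y = 0 → σ • y = y)
    (σ₁ σ₂ : GQ) (h : ∀ x ∈ L₀, σ₁ x = σ₂ x) : rX N p S a σ₁ = rX N p S a σ₂ := by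
  ext x
  rw [coe_rX_apply, coe_rX_apply]
  have h1 : (σ₂⁻¹ * σ₁) • (x : JZero N) = (x : JZero N) := by
    refine hL₀ _ (fun z hz => ?_) _ (nsmul_eq_zero_of_mem x.2)
    rw [AlgEquiv.mul_apply, h z hz]
    exact σ₂.symm_apply_apply z
  rw [mul_smul] at h1
  rw [← h1, smul_inv_smul]
  rw [h1]

set_option maxHeartbeats 4000000 in
/-- **Eichler-Shimura on the eigenspace** at a Frobenius lift at a good prime outside `S`. -/
theorem rX_frob (hp : p.Prime) {ℓ : ℕ} (hℓ : ℓ.Prime) (hℓS : ℓ ∉ S) (hℓN : ¬ ℓ ∣ N) (hℓp : ℓ ≠ p)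
    (A : ValuationSubring Qbar) (hA : A.LiesOverPrime ℓ) (τ : GQ) (hτ : A.IsFrobeniusAt τ ℓ) :
    rX N p S (fun ℓ => W.apOfModel ℓ) τ * rX N p S (fun ℓ => W.apOfModel ℓ) τ -
      algebraMap (ZMod p) (Module.End (ZMod p) (eigenX N p S fun ℓ => W.apOfModel ℓ))
        ((W.apOfModel ℓ : ℤ) : ZMod p) * rX N p S (fun ℓ => W.apOfModel ℓ) τ +
      algebraMap (ZMod p) (Module.End (ZMod p) (eigenX N p S fun ℓ => W.apOfModel ℓ))
        ((ℓ : ℕ) : ZMod p) = 0 := by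
  apply LinearMap.ext
  intro x
  apply Subtype.ext
  have hx : ∃ n : ℕ, p ^ n • (x : JZero N) = 0 := ⟨1, by
    rw [pow_one]; exact nsmul_eq_zero_of_mem x.2⟩
  have h := Fermat.Agent.S30.Arith.Torsion.frobenius_relation
    (Fermat.Agent.S30.Final.H1.hasReductionAll N p) hp hℓ hℓN hℓp A hA hτ hx
  have hmem := smul_mem (p := p) (S := S) (a := fun ℓ => W.apOfModel ℓ) τ x.2
  rw [(mem_eigenX.mp hmem).2 ℓ hℓ hℓS] at h
  set r := rX N p S (fun ℓ => W.apOfModel ℓ) with hr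
  have e1 : (r τ * r τ -
      algebraMap (ZMod p) (Module.End (ZMod p) (eigenX N p S fun ℓ => W.apOfModel ℓ))
        ((W.apOfModel ℓ : ℤ) : ZMod p) * r τ +
      algebraMap (ZMod p) (Module.End (ZMod p) (eigenX N p S fun ℓ => W.apOfModel ℓ))
        ((ℓ : ℕ) : ZMod p)) x =
      r τ (r τ x) - ((W.apOfModel ℓ : ℤ) : ZMod p) • r τ x + (((ℓ : ℕ) : ℤ) : ZMod p) • x := by
    rw [Int.cast_natCast]
    rfl
  rw [e1, AddSubgroup.coe_add, AddSubgroup.coe_sub, coe_zmod_smul, coe_zmod_smul, coe_rX_apply,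
    coe_rX_apply, natCast_zsmul]
  exact h

set_option maxHeartbeats 4000000 in
/-- **Step (ii): the Cayley-Hamilton relations.** -/
theorem rX_quadratic (hΔ : W.Δ ≠ 0)
    (hirr : Point.GaloisRepIsIrreducible (K := Qbar) ℚ (WQ W) p)
    (hS : ∀ ℓ : ℕ, ℓ.Prime → ℓ ∉ S → ¬ ℓ ∣ N) (g : GQ) :
    rX N p S (fun ℓ => W.apOfModel ℓ) g * rX N p S (fun ℓ => W.apOfModel ℓ) g -
      LinearMap.trace (ZMod p) (Vp W p) (rho W p g) • rX N p S (fun ℓ => W.apOfModel ℓ) g +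
      LinearMap.det (rho W p g) •
        (1 : Module.End (ZMod p) (eigenX N p S fun ℓ => W.apOfModel ℓ)) = 0 := by
  have hp : p.Prime := Fact.out
  have hfin := finrank_Vp p hΔ
  haveI : Module.Finite (ZMod p) (Vp W p) :=
    Module.finite_of_finrank_pos (by rw [hfin]; norm_num)
  obtain ⟨L₀, hL₀fin, hL₀⟩ := Fermat.Agent.S30.Arith.Smooth.exists_finite_fixing_torsion N p
    (Fermat.Agent.S30.Descent.PhiDictThm.finite_torsion N hp.ne_zero)
  haveI := hL₀fin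
  obtain ⟨ℓ, A, τ, k, j, hℓ, hℓS, hℓp, hgood, hA, hτ, h1, h2, -, -, h5, h6⟩ :=
    exists_frob (p := p) hΔ L₀ S g
  set r := rX N p S (fun ℓ => W.apOfModel ℓ) with hr
  -- `r g = (r τ) ^ j`, `ρ g = (ρ τ) ^ j`
  have e1 : r g = r τ ^ j := by
    have e2 : r τ = r (g ^ k) := rX_eq_of_eqOn L₀ hL₀ _ _ h5
    have e3 : r ((g ^ k) ^ j) = r g := rX_eq_of_eqOn L₀ hL₀ _ _ h6
    rw [← e3, map_pow r (g ^ k) j, ← e2]
  have e2 : rho W p g = rho W p τ ^ j := by rw [h1, h2]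
  -- the quadratic relation for `r τ`
  have hq := rX_frob (W := W) (S := S) hp hℓ hℓS (hS ℓ hℓ hℓS) hℓp A hA τ hτ
  rw [← hr] at hq
  have hpow := Fermat.Agent.S31.Lucas.pow_quadratic
    (Algebra.commutes _ _).symm (Algebra.commutes _ _).symm
    ((Algebra.commutes _ _)) hq j
  -- the characteristic polynomial of `ρ τ`
  have hcp : (rho W p τ).charpoly = X ^ 2 - C ((W.apOfModel ℓ : ℤ) : ZMod p) * X +
      C ((ℓ : ℕ) : ZMod p) := by
    rw [Fermat.Agent.S31.Lucas.charpoly_fin_two' hfin,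
      trace_rho_frob hΔ hirr hℓ hgood hℓp A hA τ hτ, det_rho_frob hΔ hirr hℓ hℓp A hA τ hτ]
  rw [e1, e2, Fermat.Agent.S31.Lucas.trace_pow hfin hcp, Fermat.Agent.S31.Lucas.det_pow hfin hcp]
  rw [← Fermat.Agent.S31.Lucas.map_Q,
    ← map_pow (algebraMap (ZMod p) (Module.End (ZMod p) (eigenX N p S fun ℓ => W.apOfModel ℓ)))]
    at hpow
  rw [Algebra.smul_def, Algebra.smul_def, mul_one]
  exact hpow

end Relation

end Fermat.Agent.S44.Ent.CH

end
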