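/-
PROJECT P (S44), brick ENT (E1): the socle lemma.  A finite module `Y` over a commutative ring
`R` whose annihilator lies in a proper ideal `I` contains a non-zero element killed by `I`.

Mathlib only.
-/
import Mathlib.RingTheory.Finiteness.Nakayama
import Mathlib.RingTheory.Artinian.Module
import Mathlib.RingTheory.Finiteness.Basic
import Mathlib.Algebra.Module.Submodule.Pointwise

set_option autoImplicit false

namespace Fermat.Agent.S44.Ent.Socle

variable {R : Type*} [CommRing R] {Y : Type*} [AddCommGroup Y] [Module R Y]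

/-- If `I ^ n` kills a non-zero submodule `Z`, some non-zero element of `Z` is killed by `I`. -/
theorem exists_ne_zero_of_pow_smul_eq_bot (I : Ideal R) (Z : Submodule R Y) (hZ : Z ≠ ⊥) (n : ℕ)
    (hn : I ^ n • Z = ⊥) : ∃ y ∈ Z, y ≠ 0 ∧ ∀ t ∈ I, t • y = 0 := by
  classical
  have hex : ∃ m, I ^ m • Z = ⊥ := ⟨n, hn⟩
  set m₀ := Nat.find hex with hm₀
  have hm₀spec : I ^ m₀ • Z = ⊥ := Nat.find_spec hex
  have hm₀pos : m₀ ≠ 0 := by
    intro h
    rw [h, pow_zero, Ideal.one_eq_top, Submodule.top_smul] at hm₀spec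
    exact hZ hm₀spec
  obtain ⟨m, hm⟩ := Nat.exists_eq_succ_of_ne_zero hm₀pos
  have hmin : I ^ m • Z ≠ ⊥ := by
    have : m < m₀ := by omega
    exact Nat.find_min hex this
  obtain ⟨y, hy, hy0⟩ := (Submodule.ne_bot_iff _).1 hmin
  refine ⟨y, Submodule.smul_le_right hy, hy0, fun t ht => ?_⟩
  have : t • y ∈ I ^ m₀ • Z := by
    rw [hm, pow_succ', mul_smul]
    exact Submodule.smul_mem_smul ht hy
  rw [hm₀spec] at this
  exact (Submodule.mem_bot R).1 this

/-- **The socle lemma.** -/
theorem exists_ne_zero_forall_smul_eq_zero [Finite Y] (I : Ideal R) (hI : I ≠ ⊤)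
    (hann : ∀ t : R, (∀ y : Y, t • y = 0) → t ∈ I) :
    ∃ y : Y, y ≠ 0 ∧ ∀ t ∈ I, t • y = 0 := by
  classical
  have : IsArtinian R Y := isArtinian_of_finite
  -- the `I`-adic chain stabilises
  let f : ℕ →o (Submodule R Y)ᵒᵈ :=
    ⟨fun n => OrderDual.toDual (I ^ n • (⊤ : Submodule R Y)), by
      intro a b hab
      change I ^ b • (⊤ : Submodule R Y) ≤ I ^ a • ⊤
      exact Submodule.smul_mono_left (Ideal.pow_le_pow_right hab)⟩
  obtain ⟨n, hn⟩ := IsArtinian.monotone_stabilizes f
  have hstab : I ^ n • (⊤ : Submodule R Y) = I ^ (n + 1) • ⊤ :=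
    congrArg OrderDual.ofDual (hn (n + 1) (Nat.le_succ n))
  set Yinf : Submodule R Y := I ^ n • ⊤ with hYinf
  have hle : Yinf ≤ I • Yinf := by
    rw [hYinf, ← mul_smul, ← pow_succ', ← hstab]
  have hfg : Yinf.FG := by
    have : Module.Finite R Y := Module.Finite.of_finite
    exact (IsNoetherian.noetherian (R := R) (M := Y) Yinf)
  obtain ⟨r, hr1, hr⟩ :=
    Submodule.exists_sub_one_mem_and_smul_eq_zero_of_fg_of_le_smul I Yinf hfg hle
  -- `Z := r • Y`
  set Z : Submodule R Y := LinearMap.range (LinearMap.lsmul R Y r) with hZdef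
  have hZne : Z ≠ ⊥ := by
    intro h
    have hrI : r ∈ I := by
      apply hann
      intro y
      have : r • y ∈ Z := ⟨y, rfl⟩
      rw [h] at this
      exact (Submodule.mem_bot R).1 this
    apply hI
    rw [Ideal.eq_top_iff_one]
    have : (1 : R) = r - (r - 1) := by ring
    rw [this]
    exact I.sub_mem hrI hr1
  have hkill : I ^ n • Z = ⊥ := by
    rw [eq_bot_iff]
    rw [Submodule.smul_le]
    rintro t ht _ ⟨y, rfl⟩
    rw [Submodule.mem_bot]
    change t • (r • y) = 0
    rw [smul_comm]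
    exact hr _ (Submodule.smul_mem_smul ht (Submodule.mem_top))
  obtain ⟨y, -, hy0, hy⟩ := exists_ne_zero_of_pow_smul_eq_bot I Z hZne n hkill
  exact ⟨y, hy0, hy⟩

end Fermat.Agent.S44.Ent.Socle
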