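/-
PROJECT P (S44), brick [ENT], part (E2) (helper21): THE HECKE ACTION ON `T_p J₀(N)`, WITH ITS VALUES
ON THE `T_ℓ`.

`S32/TateHecke.HasTheta` hides the value of `θ` on the generators; here the same `θ` (same body as
`S32.TateHecke.hasTheta`) is exposed with `θ(T_ℓ) = Tp.mapEnd (heckeEnd N ℓ)` and its `p`-adic
faithfulness.
-/
import Fermat.Agent.S32.TateHecke

set_option autoImplicit false
set_option linter.unusedSectionVars false

noncomputable section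

namespace Fermat.Agent.S44.Ent.Theta

open scoped TensorProduct
open CongruenceSubgroup ModularCurve CuspForm
open Fermat.Agent.S31.LiftAlg Fermat.Agent.S31.HeckeAction
open Fermat.Agent.S30.Eigen.MultOne
open Fermat.Agent.S30.Padic.TateModule Fermat.Agent.S30.Arith Fermat.Agent.S30.Arith.TateInputs

/-- **The Hecke action on `T_p J₀(N)`**: its value on `T_ℓ`, commutation with Galois,
`p`-adic faithfulness. -/
theorem exists_theta (p : ℕ) [Fact p.Prime] (N : ℕ) [NeZero N] (S : Finset ℕ) :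
    ∃ θ : heckeAlgebra N 2 (↑S : Set ℕ) →+* Module.End ℤ_[p] (Tp p (JZero N)),
      (∀ (ℓ : ℕ) (hℓ : ℓ.Prime) (hℓN : ¬ ℓ ∣ N) (hℓS : ℓ ∉ (↑S : Set ℕ)),
        θ (heckeAlgebra.T hℓ hℓN hℓS) = Tp.mapEnd (heckeEnd N (⟨ℓ, hℓ⟩ : Nat.Primes))) ∧
      (∀ n : ℕ, ∃ n' : ℕ, ∀ t : heckeAlgebra N 2 (↑S : Set ℕ),
        (∀ v : Tp p (JZero N), θ t v ∈
          (Ideal.span {(p : ℤ_[p])} ^ n') • (⊤ : Submodule ℤ_[p] (Tp p (JZero N)))) →
          t ∈ Ideal.span {(p : heckeAlgebra N 2 (↑S : Set ℕ)) ^ n}) := by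
  obtain ⟨ι⟩ := Fermat.Agent.S30.Descent.PhiDictThm.nonempty_ringHom
  have h : Fermat.Agent.S30.Spec.PhiDict N ι := Fermat.Agent.S30.Descent.PhiDictThm.phiDict N ι
  obtain ⟨ep, H3⟩ := Fermat.Agent.S30.Final.TateCompare.h3_of_phiDict (h := h) p
    (Fermat.Agent.S30.frickeChar N)
    (fun r => Fermat.Agent.S30.Padic.TateChar.tauChar N r r.2)
    (Fermat.Agent.S30.frickeChar_hecke N h)
    (fun r => Fermat.Agent.S30.Hecke.Parabolic.tauPar ℤ ℤ N r r.2)
    (Fermat.Agent.S30.Padic.TateChar.tateLattice N p)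
    (fun r x => Fermat.Agent.S30.Padic.TateChar.tateLattice_tauChar p N r r.2 x)
  have he := Fermat.Agent.S30.Eigen.H4Final.latticeEquiv_tauPar N
  have he' : ∀ r, IsLift _ (Tr N 2 r) _ := fun r => he r
  exact ⟨theta (↑S : Set ℕ) p he' ep,
    fun ℓ hℓ hℓN hℓS => theta_T (↑S : Set ℕ) p he' ep H3 hℓ hℓN hℓS,
    hinj (↑S : Set ℕ) p he' ep⟩

end Fermat.Agent.S44.Ent.Theta

end
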