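/-
PROJECT P (S44), brick [ENT], part (E3) = step (i) (helper21): A NON-ZERO EIGENVECTOR IN `J₀(N)[p]`
WITH THE EIGENVALUES `a_ℓ`, LIFTABLE TO THE TATE MODULE.

`f` a normalised eigenform of level `N`, `𝔪` a proper ideal of `ℤ̄` containing `p`, `a : ℕ → ℤ` with
`a_ℓ(f) ≡ a ℓ` modulo `𝔪` for the primes `ℓ ∉ S` (`S ∋ p`, `S ⊇` primes of `N`).  Then there is a
Tate vector `w ∈ T_p J₀(N)` with `w.1 1 ≠ 0` and `T_ℓ (w.1 1) = a ℓ • w.1 1` for all primes `ℓ ∉ S`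
(`exists_eigen_tate`).

Proof: `I := (p, T_ℓ - a ℓ)` is a proper ideal of the Hecke algebra `𝕋` (killed by the reduction of
the eigen-character of `f`); `Y := T_p J / p^{n'}` is a finite `𝕋`-module whose annihilator lies in
`p 𝕋 ⊆ I` (faithfulness of `θ`, `Ent/Theta`); the socle lemma (`Ent/Socle`) gives `y ≠ 0` in `Y`
killed by `I`; read `y` in `J[p^{n'}]` (`S33/KP/LevelFrame.coordQ`).
-/
import Fermat.Agent.S30.Residual.EigenChar
import Fermat.Agent.S33.KP.Level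
import Fermat.Agent.S44.Ent.Socle
import Fermat.Agent.S44.Ent.Theta

set_option autoImplicit false
set_option linter.unusedSectionVars false
set_option linter.style.haveILetI false

noncomputable section

namespace Fermat.Agent.S44.Ent.Eigen

open CongruenceSubgroup ModularCurve CuspForm ModularFormClass
open Fermat.Agent.S30.Padic.TateModule Fermat.Agent.S30.Arith.TateInputs
open Fermat.Agent.S30.Residual.EigenChar
open Fermat.Agent.S33.KP.LevelFrame Fermat.Agent.S33.KP.Level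

variable {p : ℕ} [Fact p.Prime] {N : ℕ} [NeZero N]

/-- A `p`-torsion coordinate of a Tate vector is the first coordinate of a Tate vector. -/
theorem exists_lift_of_torsion (v : Tp p (JZero N)) (k : ℕ) (h : p • v.1 k = 0) :
    ∃ w : Tp p (JZero N), w.1 1 = v.1 k := by
  rcases k with _ | m
  · exact ⟨0, by rw [Tp.coe_zero_apply, Tp.apply_zero]⟩
  · have h0 : v.1 m = 0 := by rw [← Tp.smul_apply_succ v m]; exact h
    obtain ⟨w, hw⟩ := Tp.exists_eq_pow_smul v m h0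
    refine ⟨w, ?_⟩
    rw [hw, Tp.coe_pow_smul_apply, add_comm m 1]
    exact (Tp.pow_smul_apply_add w 1 m).symm

set_option maxHeartbeats 1600000 in
/-- **Step (i)**: a Tate vector whose first coordinate is a non-zero eigenvector with the
eigenvalues `a ℓ`. -/
theorem exists_eigen_tate {f : CuspForm (Gamma0 N) 2} (hf : f.IsNormalizedEigenform)
    {𝔪 : Ideal (integralClosure ℤ ℂ)} (h𝔪 : 𝔪 ≠ ⊤) (hp𝔪 : (p : integralClosure ℤ ℂ) ∈ 𝔪)
    (S : Finset ℕ) (hNS : ∀ q : ℕ, q.Prime → q ∣ N → q ∈ S) (a : ℕ → ℤ)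
    (hcong : ∀ ℓ : ℕ, ℓ.Prime → ℓ ∉ S → ∃ b : integralClosure ℤ ℂ,
      (b : ℂ) = qCoeff f ℓ ∧ b - ((a ℓ : ℤ) : integralClosure ℤ ℂ) ∈ 𝔪) :
    ∃ w : Tp p (JZero N), w.1 1 ≠ 0 ∧ ∀ (ℓ : ℕ) (hℓ : ℓ.Prime), ℓ ∉ S →
      heckeOperatorBar N ⟨ℓ, hℓ⟩ (w.1 1) = a ℓ • w.1 1 := by
  have hp : p.Prime := Fact.out
  have hnotdvd : ∀ ℓ : ℕ, ℓ.Prime → ℓ ∉ S → ¬ ℓ ∣ N := fun ℓ hℓ hℓS h => hℓS (hNS ℓ hℓ h)
  have hcoe : ∀ ℓ : ℕ, ℓ ∉ S → ℓ ∉ (↑S : Set ℕ) := fun ℓ h => by rwa [Finset.mem_coe]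
  obtain ⟨θ, hθT, hθinj⟩ := Fermat.Agent.S44.Ent.Theta.exists_theta p N S
  obtain ⟨n', hn'⟩ := hθinj 1
  -- the finite module `Y`
  haveI : Finite (Lk p (JZero N) n') := finite_Lk p (JZero N) n'
    (Fermat.Agent.S30.Descent.PhiDictThm.finite_pow_torsion N p hp.ne_zero n')
  letI : Module (heckeAlgebra N 2 (↑S : Set ℕ)) (Lk p (JZero N) n') :=
    Module.compHom (Lk p (JZero N) n') (thetaK θ n')
  have hsm : ∀ (t : heckeAlgebra N 2 (↑S : Set ℕ)) (y : Lk p (JZero N) n'),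
      t • y = thetaK θ n' t y := fun t y => rfl
  -- the ideal `I`
  let G : Set (heckeAlgebra N 2 (↑S : Set ℕ)) :=
    {t | t = (p : heckeAlgebra N 2 (↑S : Set ℕ)) ∨
      ∃ (ℓ : ℕ) (hℓ : ℓ.Prime) (hℓS : ℓ ∉ S),
        t = heckeAlgebra.T hℓ (hnotdvd ℓ hℓ hℓS) (hcoe ℓ hℓS) -
          ((a ℓ : ℤ) : heckeAlgebra N 2 (↑S : Set ℕ))}
  -- the reduction of the eigen-character
  let χ : heckeAlgebra N 2 (↑S : Set ℕ) →+* (integralClosure ℤ ℂ ⧸ 𝔪) :=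
    (Ideal.Quotient.mk 𝔪).comp (eigenCharInt hf (↑S : Set ℕ))
  have hχG : ∀ t ∈ G, χ t = 0 := by
    rintro t (rfl | ⟨ℓ, hℓ, hℓS, rfl⟩)
    · change Ideal.Quotient.mk 𝔪 (eigenCharInt hf (↑S : Set ℕ) (p : heckeAlgebra N 2 _)) = 0
      rw [map_natCast, Ideal.Quotient.eq_zero_iff_mem]
      exact hp𝔪
    · change Ideal.Quotient.mk 𝔪 (eigenCharInt hf (↑S : Set ℕ) _) = 0
      obtain ⟨b, hb1, hb2⟩ := hcong ℓ hℓ hℓS
      rw [map_sub, map_intCast, Ideal.Quotient.eq_zero_iff_mem]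
      have : eigenCharInt hf (↑S : Set ℕ)
          (heckeAlgebra.T hℓ (hnotdvd ℓ hℓ hℓS) (hcoe ℓ hℓS)) = b := by
        apply Subtype.ext
        rw [hb1]
        exact coe_eigenCharInt_T hf hℓ _ _
      rw [this]
      exact hb2
  have hI : Ideal.span G ≠ ⊤ := by
    intro htop
    have h1 : Ideal.span G ≤ RingHom.ker χ := Ideal.span_le.mpr fun t ht => hχG t ht
    have h3 : (1 : heckeAlgebra N 2 (↑S : Set ℕ)) ∈ RingHom.ker χ :=
      h1 (htop ▸ Submodule.mem_top)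
    rw [RingHom.mem_ker, map_one] at h3
    have h2 : (Ideal.Quotient.mk 𝔪) (1 : integralClosure ℤ ℂ) = 0 := by
      rw [map_one]; exact h3
    rw [Ideal.Quotient.eq_zero_iff_mem] at h2
    exact h𝔪 ((Ideal.eq_top_iff_one 𝔪).mpr h2)
  have hann : ∀ t : heckeAlgebra N 2 (↑S : Set ℕ),
      (∀ y : Lk p (JZero N) n', t • y = 0) → t ∈ Ideal.span G := by
    intro t ht
    have h1 : t ∈ Ideal.span {(p : heckeAlgebra N 2 (↑S : Set ℕ)) ^ 1} := by
      refine hn' t fun v => ?_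
      have h2 := ht (Submodule.Quotient.mk v)
      rw [hsm, thetaK_mk, Submodule.Quotient.mk_eq_zero] at h2
      exact h2
    rw [pow_one, Ideal.mem_span_singleton'] at h1
    obtain ⟨c, rfl⟩ := h1
    exact Ideal.mul_mem_left _ _ (Ideal.subset_span (Or.inl rfl))
  obtain ⟨y, hy0, hy⟩ :=
    Fermat.Agent.S44.Ent.Socle.exists_ne_zero_forall_smul_eq_zero (Ideal.span G) hI hann
  -- read `y` in `J`
  obtain ⟨v, rfl⟩ := Submodule.Quotient.mk_surjective _ y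
  have hx0 : v.1 n' ≠ 0 := by
    intro h
    apply hy0
    apply coordQ_injective p (JZero N) n'
    rw [coordQ_mk, h, map_zero]
  have hmk : ∀ t : heckeAlgebra N 2 (↑S : Set ℕ), t ∈ Ideal.span G →
      (θ t v).1 n' = 0 := by
    intro t ht
    have h1 : (Submodule.Quotient.mk (θ t v) : Lk p (JZero N) n') = 0 := hy t ht
    have h2 := congrArg (coordQ p (JZero N) n') h1
    rw [coordQ_mk, map_zero] at h2
    exact h2
  have hpx : p • v.1 n' = 0 := by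
    have h1 := hmk _ (Ideal.subset_span (Or.inl rfl))
    rw [map_natCast, Module.End.natCast_apply] at h1
    exact h1
  have heig : ∀ (ℓ : ℕ) (hℓ : ℓ.Prime), ℓ ∉ S →
      heckeOperatorBar N ⟨ℓ, hℓ⟩ (v.1 n') = a ℓ • v.1 n' := by
    intro ℓ hℓ hℓS
    have hmem : heckeAlgebra.T hℓ (hnotdvd ℓ hℓ hℓS) (hcoe ℓ hℓS) -
        ((a ℓ : ℤ) : heckeAlgebra N 2 (↑S : Set ℕ)) ∈ G := Or.inr ⟨ℓ, hℓ, hℓS, rfl⟩
    have h1 := hmk _ (Ideal.subset_span hmem)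
    have h2 : θ (heckeAlgebra.T hℓ (hnotdvd ℓ hℓ hℓS) (hcoe ℓ hℓS) -
        ((a ℓ : ℤ) : heckeAlgebra N 2 (↑S : Set ℕ))) v =
        Tp.mapEnd (heckeEnd N (⟨ℓ, hℓ⟩ : Nat.Primes)) v - (a ℓ) • v := by
      rw [map_sub, map_intCast θ (a ℓ), hθT, LinearMap.sub_apply, Module.End.intCast_apply]
    have h3 : ((a ℓ) • v).1 n' = a ℓ • v.1 n' := rfl
    rw [h2, Tp.coe_sub_apply, Tp.coe_mapEnd_apply, h3, sub_eq_zero] at h1
    exact h1
  obtain ⟨w, hw⟩ := exists_lift_of_torsion v n' hpx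
  refine ⟨w, by rwa [hw], fun ℓ hℓ hℓS => ?_⟩
  rw [hw]
  exact heig ℓ hℓ hℓS

end Fermat.Agent.S44.Ent.Eigen

end
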