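/-
PROJECT P (S44), brick [ENT], part (E6) = step (iii) = THE EXPORT (helper21): `E[p]` EMBEDS INTO
`J₀(N)[p]` AS A HECKE EIGENSPACE.

`W` an integral Weierstrass model with `Δ ≠ 0`, `p` odd with `E[p]` irreducible, `f` a normalised
eigenform of level `N` with `a_ℓ(f) ≡ a_ℓ(W)` modulo a maximal ideal `𝔪 ∋ p` of `ℤ̄` for the good
primes `ℓ ∤ N p`.  Then there is an injective, `G_ℚ`-equivariant additive map
`φ : E[p] → J₀(N)` with `T_ℓ (φ v) = a_ℓ(W) • φ v` for all those `ℓ`, whose values are first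
coordinates of Tate vectors (`exists_phi`; `exists_phi_frey` in the frame of the Frey package).

Proof: (i) `Ent/Eigen` : the eigenspace `X = Ent/CH.eigenX` is non-zero; (ii) `Ent/CH.rX_quadratic` :
every `g` satisfies on `X` the characteristic polynomial of `ρ̄_E(g)`; (iii) Boston-Lenstra-Ribet
(helper3's `Alg/BLR`) with `span ρ̄_E(G_ℚ) = End E[p]` (`Ent/DetE.span_range_rho`).
-/
import Fermat.Prelude.Def_FLTPrelim_ModularRep
import Fermat.Agent.S41.NonEis.Main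
import Fermat.Agent.S44.Alg.BLR
import Fermat.Agent.S44.Ent.Eigen
import Fermat.Agent.S44.Ent.CH

set_option autoImplicit false
set_option linter.unusedSectionVars false
set_option linter.style.haveILetI false

noncomputable section

namespace Fermat.Agent.S44.Ent.Phi

open WeierstrassCurve WeierstrassCurve.Affine Module ModularCurve CuspForm ModularFormClass
open scoped WeierstrassCurve.Affine
open Fermat.Agent.S58.TateE (WQ Pts)
open Fermat.Agent.S41.NonEis.Inst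
open Fermat.Agent.S30.Algebra.Cyclotomic (Qbar GQ)
open Fermat.Agent.S30.Padic.TateModule
open Fermat.Agent.S44.Ent.DetE Fermat.Agent.S44.Ent.CH

/-- the exceptional set: `p`, the primes of `N`, the bad primes of `W`. -/
def excSet (W : WeierstrassCurve ℤ) (p N : ℕ) : Finset ℕ :=
  insert p (N.primeFactors ∪ W.Δ.natAbs.primeFactors)

theorem not_mem_excSet {W : WeierstrassCurve ℤ} {p N : ℕ} {ℓ : ℕ}
    (hgood : W.IsGoodPrimeFor ℓ) (hℓN : ¬ ℓ ∣ N) (hℓp : ℓ ≠ p) : ℓ ∉ excSet W p N := by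
  intro h
  rcases Finset.mem_insert.mp h with h | h
  · exact hℓp h
  · rcases Finset.mem_union.mp h with h | h
    · exact hℓN (Nat.dvd_of_mem_primeFactors h)
    · exact hgood (Int.natCast_dvd.mpr (Nat.dvd_of_mem_primeFactors h))

theorem of_not_mem_excSet {W : WeierstrassCurve ℤ} (hΔ : W.Δ ≠ 0) {p N : ℕ} (hN : N ≠ 0) {ℓ : ℕ}
    (hℓ : ℓ.Prime) (h : ℓ ∉ excSet W p N) : W.IsGoodPrimeFor ℓ ∧ ¬ ℓ ∣ N ∧ ℓ ≠ p := by
  simp only [excSet, Finset.mem_insert, Finset.mem_union, not_or] at h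
  obtain ⟨h1, h2, h3⟩ := h
  refine ⟨fun hd => h3 ?_, fun hd => h2 (Nat.mem_primeFactors.mpr ⟨hℓ, hd, hN⟩), h1⟩
  exact Nat.mem_primeFactors.mpr ⟨hℓ, Int.natCast_dvd.mp hd, Int.natAbs_ne_zero.mpr hΔ⟩

/-- **THE EXPORT OF [ENT]** = item (1) of the top logic of PROJECT P. -/
theorem exists_phi {p : ℕ} [Fact p.Prime] (hp2 : p ≠ 2) {N : ℕ} [NeZero N]
    {W : WeierstrassCurve ℤ} (hΔ : W.Δ ≠ 0)
    (hirr : Point.GaloisRepIsIrreducible (K := AlgebraicClosure ℚ) ℚ (WQ W) p)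
    {f : CuspForm (CongruenceSubgroup.Gamma0 N) 2} (hf : f.IsNormalizedEigenform)
    {𝔪 : Ideal (integralClosure ℤ ℂ)} (h𝔪 : 𝔪.IsMaximal) (hp𝔪 : (p : integralClosure ℤ ℂ) ∈ 𝔪)
    (hcong : ∀ ℓ : ℕ, ℓ.Prime → W.IsGoodPrimeFor ℓ → ¬ ℓ ∣ N → ℓ ≠ p →
      ∃ a : integralClosure ℤ ℂ, (a : ℂ) = ModularFormClass.qCoeff f ℓ ∧
        a - ((W.apOfModel ℓ : ℤ) : integralClosure ℤ ℂ) ∈ 𝔪) :
    ∃ φ : Vp W p →+ JZero N, Function.Injective φ ∧
      (∀ (σ : GQ) (v : Vp W p), φ (σ • v) = σ • φ v) ∧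
      (∀ (ℓ : ℕ) (hℓ : ℓ.Prime), W.IsGoodPrimeFor ℓ → ¬ ℓ ∣ N → ℓ ≠ p → ∀ v : Vp W p,
        heckeOperatorBar N ⟨ℓ, hℓ⟩ (φ v) = W.apOfModel ℓ • φ v) ∧
      ∀ v : Vp W p, ∃ w : Tp p (JZero N), w.1 1 = φ v := by
  have hN : N ≠ 0 := NeZero.ne N
  set S := excSet W p N with hS
  -- (i) the eigenspace is non-zero
  obtain ⟨w, hw0, hw⟩ := Fermat.Agent.S44.Ent.Eigen.exists_eigen_tate (p := p) hf h𝔪.ne_top hp𝔪 S
    (fun q hq hqN => Finset.mem_insert_of_mem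
      (Finset.mem_union_left _ (Nat.mem_primeFactors.mpr ⟨hq, hqN, hN⟩)))
    (fun ℓ => W.apOfModel ℓ)
    (fun ℓ hℓ hℓS => by
      obtain ⟨h1, h2, h3⟩ := of_not_mem_excSet hΔ hN hℓ hℓS
      exact hcong ℓ hℓ h1 h2 h3)
  haveI : Nontrivial (eigenX N p S fun ℓ => W.apOfModel ℓ) :=
    ⟨⟨⟨w.1 1, ⟨w, rfl⟩, hw⟩, 0, fun h => hw0 (congrArg Subtype.val h)⟩⟩
  -- (iii) Boston-Lenstra-Ribet
  have h2 : (2 : ZMod p) ≠ 0 := by
    intro h
    have h3 : ((2 : ℕ) : ZMod p) = 0 := by exact_mod_cast h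
    rw [ZMod.natCast_eq_zero_iff] at h3
    exact hp2 ((Nat.prime_dvd_prime_iff_eq (Fact.out : p.Prime) Nat.prime_two).mp h3)
  obtain ⟨φ₀, hinj, heq⟩ := Fermat.Agent.S44.Alg.BLR.exists_injective_of_cayleyHamilton h2
    (finrank_Vp p hΔ) (rho W p) (span_range_rho hΔ hp2 hirr)
    (rX N p S fun ℓ => W.apOfModel ℓ)
    (rX_quadratic hΔ hirr fun ℓ hℓ hℓS => (of_not_mem_excSet hΔ hN hℓ hℓS).2.1)
  refine ⟨(eigenX N p S fun ℓ => W.apOfModel ℓ).subtype.comp φ₀.toAddMonoidHom, ?_, ?_, ?_, ?_⟩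
  · exact Subtype.val_injective.comp hinj
  · intro σ v
    have := congrArg Subtype.val (heq σ v)
    exact this
  · intro ℓ hℓ hgood hℓN hℓp v
    exact (φ₀ v).2.2 ℓ hℓ (not_mem_excSet hgood hℓN hℓp)
  · intro v
    exact (φ₀ v).2.1

/-- **The export in the frame of the Frey package**: from `hmod`, an integral model `W` of the Frey
curve and the embedding `φ` of `E[p]` into `J₀(N)`. -/
theorem exists_phi_frey (P : FreyPackage) [Fact P.p.Prime] {N : ℕ} [NeZero N]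
    (hirr : Point.GaloisRepIsIrreducible (K := AlgebraicClosure ℚ) ℚ P.freyCurve P.p)
    (hmod : P.ModularRepOfLevel N) :
    ∃ W : WeierstrassCurve ℤ, W.IsIntegralModelOf P.freyCurve ∧ W.Δ ≠ 0 ∧
      ∃ φ : Vp W P.p →+ JZero N, Function.Injective φ ∧
        (∀ (σ : GQ) (v : Vp W P.p), φ (σ • v) = σ • φ v) ∧
        (∀ (ℓ : ℕ) (hℓ : ℓ.Prime), W.IsGoodPrimeFor ℓ → ¬ ℓ ∣ N → ℓ ≠ P.p → ∀ v : Vp W P.p,
          heckeOperatorBar N ⟨ℓ, hℓ⟩ (φ v) = W.apOfModel ℓ • φ v) ∧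
        ∀ v : Vp W P.p, ∃ w : Tp P.p (JZero N), w.1 1 = φ v := by
  obtain ⟨f, W, 𝔪, hf, hW, h𝔪, hp𝔪, hcong⟩ := hmod
  haveI : P.freyCurve.IsElliptic :=
    ⟨isUnit_iff_ne_zero.mpr (Fermat.Agent.S13.CU.FreyInputs.frey_Δ_ne_zero P)⟩
  have hΔ := Fermat.Agent.S41.NonEis.Main.disc_ne_zero P.freyCurve hW
  have hp2 : P.p ≠ 2 := by have := P.hp5; omega
  obtain ⟨C, hC⟩ := hW
  have hirr' : Point.GaloisRepIsIrreducible (K := AlgebraicClosure ℚ) ℚ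
      (W.map (Int.castRingHom ℚ)) P.p := by
    rw [← hC]
    exact Fermat.Agent.S41.NonEis.Transfer.irreducible_smul P.freyCurve C P.p hirr
  exact ⟨W, ⟨C, hC⟩, hΔ, exists_phi hp2 hΔ hirr' hf h𝔪 hp𝔪 hcong⟩

end Fermat.Agent.S44.Ent.Phi

end
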