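/-
PROJECT P (S44), brick [ENT], part (E7) (helper21): THE EXPORT ON THE CARRIER `E[p]` OF THE FREY
CURVE ITSELF.

`Ent/Phi.exists_phi_frey` embeds `W[p]` for the integral model `W` given by `hmod`; the local bricks
(S05 / S12 / S13 stock, `Loc/FreyPeu`) and the frozen statement S44 speak of
`Submodule.torsionBy ℤ (P.freyCurve⁄ℚ̄).Point P.p`.  A rational change of variables identifies the
two `G_ℚ`-equivariantly (`S41/NonEis/Transfer.torsionMap`), so the embedding is transported
(`exists_phi_tors`).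
-/
import Fermat.Agent.S44.Ent.Phi

set_option autoImplicit false
set_option linter.unusedSectionVars false
set_option linter.style.haveILetI false

noncomputable section

namespace Fermat.Agent.S44.Ent.Frey

open WeierstrassCurve WeierstrassCurve.Affine Module ModularCurve CuspForm ModularFormClass
open scoped WeierstrassCurve.Affine
open Fermat.Agent.S58.TateE (WQ Pts)
open Fermat.Agent.S41.NonEis.Inst
open Fermat.Agent.S41.NonEis.Transfer
open Fermat.Agent.S30.Algebra.Cyclotomic (Qbar GQ)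
open Fermat.Agent.S30.Padic.TateModule

/-- A rational change of variables identifies the `p`-torsion groups `G_ℚ`-equivariantly. -/
theorem exists_addEquiv_of_smul_eq {E E' : WeierstrassCurve ℚ} (C : VariableChange ℚ)
    (h : C • E = E') (p : ℕ) :
    ∃ e : Submodule.torsionBy ℤ (E⁄Qbar).Point p ≃+
        Submodule.torsionBy ℤ (E'⁄Qbar).Point p,
      ∀ (σ : GQ) (v : Submodule.torsionBy ℤ (E⁄Qbar).Point p),
        e (σ • v) = σ • e v := by
  subst h
  let e₀ := LinearEquiv.ofBijective (torsionMap E C p)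
    ⟨torsionMap_injective E C p, torsionMap_surjective E C p⟩
  refine ⟨e₀.symm.toAddEquiv, fun σ v => ?_⟩
  obtain ⟨u, rfl⟩ := e₀.surjective v
  change e₀.symm (σ • e₀ u) = σ • e₀.symm (e₀ u)
  have h1 : σ • e₀ u = e₀ (σ • u) := (torsionMap_smul E C p σ u).symm
  rw [h1, LinearEquiv.symm_apply_apply, LinearEquiv.symm_apply_apply]

/-- **THE EXPORT OF [ENT] ON THE CARRIER OF THE FROZEN STATEMENT**: from `hirr` and `hmod` of S44, an
integral model `W` of the Frey curve and an injective `G_ℚ`-equivariant additive map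
`φ : E[p] → J₀(N)` (`E` the Frey curve itself) with `T_ℓ (φ v) = a_ℓ(W) • φ v` for the good primes
`ℓ ∤ N p`, whose values are first coordinates of Tate vectors. -/
theorem exists_phi_tors (P : FreyPackage) [Fact P.p.Prime] {N : ℕ} [NeZero N]
    (hirr : Point.GaloisRepIsIrreducible (K := AlgebraicClosure ℚ) ℚ P.freyCurve P.p)
    (hmod : P.ModularRepOfLevel N) :
    ∃ W : WeierstrassCurve ℤ, W.IsIntegralModelOf P.freyCurve ∧ W.Δ ≠ 0 ∧
      ∃ φ : Submodule.torsionBy ℤ (P.freyCurve⁄Qbar).Point P.p →+ JZero N,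
        Function.Injective φ ∧
        (∀ (σ : GQ) (v : Submodule.torsionBy ℤ (P.freyCurve⁄Qbar).Point P.p),
          φ (σ • v) = σ • φ v) ∧
        (∀ (ℓ : ℕ) (hℓ : ℓ.Prime), W.IsGoodPrimeFor ℓ → ¬ ℓ ∣ N → ℓ ≠ P.p →
          ∀ v : Submodule.torsionBy ℤ (P.freyCurve⁄Qbar).Point P.p,
            heckeOperatorBar N ⟨ℓ, hℓ⟩ (φ v) = W.apOfModel ℓ • φ v) ∧
        ∀ v : Submodule.torsionBy ℤ (P.freyCurve⁄Qbar).Point P.p,
          ∃ w : Tp P.p (JZero N), w.1 1 = φ v := by
  obtain ⟨W, hW, hΔ, φ, hinj, heq, heig, hlift⟩ :=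
    Fermat.Agent.S44.Ent.Phi.exists_phi_frey P hirr hmod
  obtain ⟨C, hC⟩ := hW
  obtain ⟨e, he⟩ := exists_addEquiv_of_smul_eq C hC P.p
  refine ⟨W, ⟨C, hC⟩, hΔ, φ.comp e.toAddMonoidHom, hinj.comp e.injective, fun σ v => ?_,
    fun ℓ hℓ hgood hℓN hℓp v => heig ℓ hℓ hgood hℓN hℓp (e v), fun v => hlift (e v)⟩
  change φ (e (σ • v)) = σ • φ (e v)
  rw [he, heq]

end Fermat.Agent.S44.Ent.Frey

end
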